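import Mathlib

/-!
# Ideals of variables in multivariate power series rings

Helper library for statement S57: the ideal generated by a finite set of variables, the
regular sequence `X₀, …, X_{r-1}, ϖ` and the maximal ideal of `𝒪⟦X₀, …, X_{r-1}⟧`.
-/

set_option autoImplicit false

open MvPowerSeries RingTheory.Sequence

namespace Fermat.Agent.S57

section VarsIdeal

variable {σ : Type*} {R : Type*} [CommRing R]

/-- The ideal of power series all of whose coefficients at monomials not involving any
variable from `S` vanish. -/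
def varsIdeal (S : Set σ) : Ideal (MvPowerSeries σ R) where
  carrier := {f | ∀ m : σ →₀ ℕ, (∀ s ∈ S, m s = 0) → coeff m f = 0}
  add_mem' := by
    intro f g hf hg m hm
    rw [map_add, hf m hm, hg m hm, add_zero]
  zero_mem' := by
    intro m _
    exact map_zero _
  smul_mem' := by
    intro g f hf m hm
    classical
    rw [smul_eq_mul, coeff_mul]
    apply Finset.sum_eq_zero
    rintro ⟨a, b⟩ hab
    rw [Finset.HasAntidiagonal.mem_antidiagonal] at hab
    dsimp only at hab ⊢
    have hb : ∀ s ∈ S, b s = 0 := fun s hs => by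
      have h := hm s hs
      rw [← hab, Finsupp.add_apply] at h
      omega
    rw [hf b hb, mul_zero]

theorem mem_varsIdeal_iff {S : Set σ} {f : MvPowerSeries σ R} :
    f ∈ varsIdeal S ↔ ∀ m : σ →₀ ℕ, (∀ s ∈ S, m s = 0) → coeff m f = 0 := Iff.rfl

theorem X_mem_varsIdeal {S : Set σ} {s : σ} (hs : s ∈ S) :
    (X s : MvPowerSeries σ R) ∈ varsIdeal S := by
  classical
  intro m hm
  rw [coeff_X, if_neg]
  intro h
  have := hm s hs
  rw [h] at this
  simp at this

theorem span_le_varsIdeal (S : Set σ) :
    Ideal.span ((X : σ → MvPowerSeries σ R) '' S) ≤ varsIdeal S := by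
  rw [Ideal.span_le]
  rintro _ ⟨s, hs, rfl⟩
  exact X_mem_varsIdeal hs

theorem varsIdeal_le_span (S : Finset σ) :
    varsIdeal (R := R) (S : Set σ) ≤ Ideal.span ((X : σ → MvPowerSeries σ R) '' (S : Set σ)) := by
  classical
  induction S using Finset.induction_on with
  | empty =>
    intro f hf
    have : f = 0 := by
      ext m
      rw [map_zero]
      exact hf m (by simp)
    rw [this]
    exact zero_mem _
  | insert s S hs ih =>
    intro f hf
    -- split `f` into the part divisible by `X s` and the rest
    let f₂ : MvPowerSeries σ R := fun m => if m s = 0 then coeff m f else 0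
    have hf₂ : ∀ m, coeff m f₂ = if m s = 0 then coeff m f else 0 := fun m => rfl
    have h1 : (X s : MvPowerSeries σ R) ∣ f - f₂ := by
      rw [X_dvd_iff]
      intro m hm
      rw [map_sub, hf₂, if_pos hm, sub_self]
    have h2 : f₂ ∈ varsIdeal (R := R) (S : Set σ) := by
      intro m hm
      rw [hf₂]
      split_ifs with hms
      · apply hf m
        intro t ht
        rw [Finset.coe_insert, Set.mem_insert_iff] at ht
        rcases ht with rfl | ht
        · exact hms
        · exact hm t ht
      · rfl
    have h3 : f₂ ∈ Ideal.span ((X : σ → MvPowerSeries σ R) '' ((insert s S : Finset σ) : Set σ)) :=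
      Ideal.span_mono (Set.image_mono (by simp)) (ih h2)
    have h4 : f - f₂ ∈
        Ideal.span ((X : σ → MvPowerSeries σ R) '' ((insert s S : Finset σ) : Set σ)) := by
      obtain ⟨g, hg⟩ := h1
      rw [hg]
      exact Ideal.mul_mem_right _ _ (Ideal.subset_span ⟨s, by simp, rfl⟩)
    have := add_mem h4 h3
    rwa [sub_add_cancel] at this

theorem varsIdeal_eq_span (S : Finset σ) :
    varsIdeal (R := R) (S : Set σ) = Ideal.span ((X : σ → MvPowerSeries σ R) '' (S : Set σ)) :=
  le_antisymm (varsIdeal_le_span S) (span_le_varsIdeal _)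

theorem mem_varsIdeal_of_X_mul_mem {S : Set σ} {s : σ} (hs : s ∉ S) {f : MvPowerSeries σ R}
    (hf : X s * f ∈ varsIdeal S) : f ∈ varsIdeal S := by
  classical
  intro m hm
  have h := hf (m + Finsupp.single s 1) (by
    intro t ht
    have hts : t ≠ s := fun h => hs (h ▸ ht)
    simp [hm t ht, hts])
  rw [X_def, add_comm, coeff_add_monomial_mul, one_mul] at h
  exact h

theorem mem_varsIdeal_of_C_mul_mem {S : Set σ} {a : R} (ha : IsSMulRegular R a)
    {f : MvPowerSeries σ R} (hf : C a * f ∈ varsIdeal S) : f ∈ varsIdeal S := by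
  intro m hm
  have h := hf m hm
  rw [coeff_C_mul] at h
  exact ha.right_eq_zero_of_smul h

end VarsIdeal


section Gens

variable {R : Type*} [CommRing R] (r : ℕ)

theorem varsIdeal_eq_span_of_finite {σ : Type*} (S : Set σ) (hS : S.Finite) :
    varsIdeal (R := R) S = Ideal.span ((X : σ → MvPowerSeries σ R) '' S) := by
  have := varsIdeal_eq_span (R := R) hS.toFinset
  rwa [hS.coe_toFinset] at this

/-- The list `X₀, …, X_{r-1}, ϖ` in `R⟦X₀, …, X_{r-1}⟧`. -/
noncomputable def gensList (ϖ : R) : List (MvPowerSeries (Fin r) R) :=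
  List.ofFn (X : Fin r → MvPowerSeries (Fin r) R) ++ [C ϖ]

@[simp]
theorem length_gensList (ϖ : R) : (gensList r ϖ).length = r + 1 := by
  simp [gensList]

theorem ofList_take_gensList (ϖ : R) {i : ℕ} (hi : i ≤ r) :
    Ideal.ofList ((gensList r ϖ).take i) = varsIdeal {j : Fin r | j.val < i} := by
  rw [varsIdeal_eq_span_of_finite _ (Set.toFinite _)]
  unfold Ideal.ofList
  congr 1
  ext x
  simp only [gensList, Set.mem_ofPred_eq, Set.mem_image]
  rw [List.take_append_of_le_length (by simpa using hi), List.mem_take_iff_getElem]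
  constructor
  · rintro ⟨k, hk, rfl⟩
    have hk' : k < i ∧ k < r := by simpa using hk
    exact ⟨⟨k, hk'.2⟩, hk'.1, by simp⟩
  · rintro ⟨j, hj, rfl⟩
    have hj' : (j : ℕ) < i := hj
    exact ⟨j.val, by rw [List.length_ofFn]; exact lt_min hj' j.isLt, by simp⟩

theorem isWeaklyRegular_gensList {ϖ : R} (hϖ : IsSMulRegular R ϖ) :
    IsWeaklyRegular (MvPowerSeries (Fin r) R) (gensList r ϖ) := by
  rw [isWeaklyRegular_iff]
  intro i hi
  have hi' : i ≤ r := by
    rw [length_gensList] at hi
    omega
  rw [isSMulRegular_quotient_iff_mem_of_smul_mem]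
  intro f hf
  rw [smul_eq_mul, Ideal.mul_top, ofList_take_gensList r ϖ hi'] at hf ⊢
  rcases Nat.lt_or_ge i r with hir | hir
  · have hget : (gensList r ϖ)[i] = X ⟨i, hir⟩ := by
      simp [gensList, List.getElem_append_left, hir]
    rw [hget, smul_eq_mul] at hf
    exact mem_varsIdeal_of_X_mul_mem (by simp) hf
  · have hir' : i = r := le_antisymm hi' hir
    subst hir'
    have hget : (gensList i ϖ)[i] = C ϖ := by
      simp [gensList]
    rw [hget, smul_eq_mul] at hf
    exact mem_varsIdeal_of_C_mul_mem hϖ hf

theorem ofList_gensList (ϖ : R) :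
    Ideal.ofList (gensList r ϖ) = varsIdeal (Set.univ : Set (Fin r)) ⊔ Ideal.span {C ϖ} := by
  have h := ofList_take_gensList r ϖ (le_refl r)
  have h1 : (gensList r ϖ).take r = List.ofFn (X : Fin r → MvPowerSeries (Fin r) R) := by
    simp [gensList]
  have h2 : {j : Fin r | j.val < r} = Set.univ := by
    ext j
    simp
  rw [h1, h2] at h
  rw [gensList, Ideal.ofList_append, h, Ideal.ofList_singleton]

theorem ofList_gensList_eq_maximalIdeal [IsLocalRing R] {ϖ : R}
    (hϖ : IsLocalRing.maximalIdeal R = Ideal.span {ϖ}) :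
    Ideal.ofList (gensList r ϖ) = IsLocalRing.maximalIdeal (MvPowerSeries (Fin r) R) := by
  rw [ofList_gensList]
  have hϖm : ϖ ∈ IsLocalRing.maximalIdeal R := by
    rw [hϖ]
    exact Ideal.mem_span_singleton_self ϖ
  apply le_antisymm
  · apply sup_le
    · intro f hf
      rw [IsLocalRing.mem_maximalIdeal, mem_nonunits_iff, isUnit_iff_constantCoeff,
        ← coeff_zero_eq_constantCoeff_apply, hf 0 (by simp)]
      exact not_isUnit_zero
    · rw [Ideal.span_singleton_le_iff_mem, IsLocalRing.mem_maximalIdeal, mem_nonunits_iff,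
        isUnit_iff_constantCoeff, constantCoeff_C]
      exact (IsLocalRing.mem_maximalIdeal _).mp hϖm
  · intro f hf
    rw [IsLocalRing.mem_maximalIdeal, mem_nonunits_iff, isUnit_iff_constantCoeff] at hf
    have hf' : constantCoeff f ∈ IsLocalRing.maximalIdeal R :=
      (IsLocalRing.mem_maximalIdeal _).mpr hf
    rw [hϖ, Ideal.mem_span_singleton'] at hf'
    obtain ⟨a, ha⟩ := hf'
    have hdecomp : f = (f - C (constantCoeff f)) + C a * C ϖ := by
      rw [← map_mul, ha]
      ring
    rw [hdecomp]
    refine add_mem (Ideal.mem_sup_left ?_)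
      (Ideal.mem_sup_right (Ideal.mul_mem_left _ _ (Ideal.mem_span_singleton_self _)))
    intro m hm
    have hm0 : m = 0 := by
      ext j
      exact hm j (Set.mem_univ j)
    subst hm0
    rw [map_sub, coeff_zero_C, coeff_zero_eq_constantCoeff_apply, sub_self]

end Gens

end Fermat.Agent.S57
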