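import Mathlib

/-!
# Maximal Cohen–Macaulay modules over a regular local ring are free (elementary version)

Helper library for statement S57.
-/

set_option autoImplicit false

open IsLocalRing RingTheory.Sequence Submodule Pointwise CategoryTheory Abelian

namespace Fermat.Agent.S57

universe u v

section Ischebeck

variable {A : Type u} [CommRing A] [IsLocalRing A] [IsNoetherianRing A]

/-- Ischebeck-type bound: the length of a weakly regular sequence in the maximal ideal on a
finite module `N` is at most `dim A/p` for every associated prime `p` of `N`. -/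
theorem length_le_ringKrullDim_quotient_of_isAssociatedPrime
    {N : Type v} [AddCommGroup N] [Module A N] [Module.Finite A N]
    {rs : List A} (hrs : IsWeaklyRegular N rs) (hmem : ∀ r ∈ rs, r ∈ maximalIdeal A)
    {p : Ideal A} (hp : IsAssociatedPrime p N) :
    (rs.length : WithBot ℕ∞) ≤ ringKrullDim (A ⧸ p) := by
  induction rs generalizing N p with
  | nil =>
    have := hp.isPrime
    simpa using ringKrullDim_nonneg_of_nontrivial (R := A ⧸ p)
  | cons z rs ih =>
    obtain ⟨hz, hrs'⟩ := (isWeaklyRegular_cons_iff N z rs).mp hrs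
    have hzm : z ∈ maximalIdeal A := hmem z List.mem_cons_self
    have hpp : p.IsPrime := hp.isPrime
    obtain ⟨-, v, hv⟩ := (isAssociatedPrime_iff (M := N)).mp hp
    -- `v ≠ 0`
    have hv0 : v ≠ 0 := by
      rintro rfl
      apply hpp.ne_top
      rw [hv]
      ext a
      simp [mem_colon_singleton]
    have hpv : ∀ a ∈ p, a • v = 0 := by
      intro a ha
      rw [hv, mem_colon_singleton] at ha
      simpa using ha
    -- `z ∉ p`
    have hzp : z ∉ p := by
      intro hzp
      exact hv0 (hz.right_eq_zero_of_smul (hpv z hzp))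
    -- the `p`-torsion submodule
    let V : Submodule A N := torsionBySet A N p
    have hvV : v ∈ V := by
      rw [mem_torsionBySet_iff]
      rintro ⟨a, ha⟩
      exact hpv a ha
    have hVne : V ≠ ⊥ := fun h => hv0 (by simpa [h] using hvV)
    have hVfg : V.FG := IsNoetherian.noetherian V
    have hnot : ¬ V ≤ Ideal.span {z} • V := fun hle =>
      hVne (eq_bot_of_le_smul_of_le_jacobson_bot (Ideal.span {z}) V hVfg hle
        ((Ideal.span_singleton_le_iff_mem _).mpr
          (IsLocalRing.maximalIdeal_le_jacobson _ hzm)))
    obtain ⟨w, hwV, hw⟩ := SetLike.not_le_iff_exists.mp hnot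
    have hwV' : ∀ a ∈ p, a • w = 0 := fun a ha =>
      (mem_torsionBySet_iff _ _).mp hwV ⟨a, ha⟩
    -- `w ∉ z • ⊤`
    have hwz : w ∉ z • (⊤ : Submodule A N) := by
      intro hwz
      obtain ⟨u, -, rfl⟩ := (mem_smul_pointwise_iff_exists _ _ _).mp hwz
      apply hw
      rw [ideal_span_singleton_smul]
      refine smul_mem_pointwise_smul u z V ?_
      rw [mem_torsionBySet_iff]
      rintro ⟨a, ha⟩
      have := hwV' a ha
      rw [smul_comm] at this
      exact hz.right_eq_zero_of_smul this
    have hw0 : (Submodule.Quotient.mk w : QuotSMulTop z N) ≠ 0 := by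
      rwa [Ne, Submodule.Quotient.mk_eq_zero]
    obtain ⟨P, hP, hle⟩ := exists_le_isAssociatedPrime_of_isNoetherianRing A
      (Submodule.Quotient.mk w : QuotSMulTop z N) hw0
    have hPp : P.IsPrime := hP.isPrime
    have hpP : p ≤ P := by
      intro a ha
      apply hle
      rw [mem_colon_singleton, mem_bot, ← Submodule.Quotient.mk_smul, hwV' a ha,
        Submodule.Quotient.mk_zero]
    have hzP : z ∈ P := by
      apply hle
      rw [mem_colon_singleton, mem_bot, ← Submodule.Quotient.mk_smul,
        Submodule.Quotient.mk_eq_zero]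
      exact smul_mem_pointwise_smul w z ⊤ mem_top
    have ih' := ih hrs' (fun r hr => hmem r (List.mem_cons_of_mem _ hr)) hP
    have hdim : ringKrullDim (A ⧸ P) + 1 ≤ ringKrullDim (A ⧸ p) := by
      refine ringKrullDim_succ_le_of_surjective (Ideal.Quotient.factor hpP)
        (Ideal.Quotient.factor_surjective hpP) (r := Ideal.Quotient.mk p z) ?_ ?_
      · rw [mem_nonZeroDivisors_iff_ne_zero, Ne, Ideal.Quotient.eq_zero_iff_mem]
        exact hzp
      · rw [Ideal.Quotient.factor_mk, Ideal.Quotient.eq_zero_iff_mem]
        exact hzP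
    calc ((z :: rs).length : WithBot ℕ∞) = (rs.length : WithBot ℕ∞) + 1 := by
          simp
      _ ≤ ringKrullDim (A ⧸ P) + 1 := by gcongr
      _ ≤ ringKrullDim (A ⧸ p) := hdim

end Ischebeck

section Generators

variable {A : Type u} [CommRing A] [IsLocalRing A] [IsNoetherianRing A]

theorem spanFinrank_ofList_le_length {B : Type u} [CommRing B] (l : List B) :
    (Ideal.ofList l).spanFinrank ≤ l.length := by
  classical
  have hfin : ({r | r ∈ l} : Set B).Finite := List.finite_toSet l
  refine (Submodule.spanFinrank_span_le_ncard_of_finite hfin).trans ?_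
  have : ({r | r ∈ l} : Set B) = ↑l.toFinset := by ext; simp
  rw [this, Set.ncard_coe_finset]
  exact List.toFinset_card_le l

omit [IsNoetherianRing A] in
theorem maximalIdeal_eq_ofList_map_of_surjective {B : Type u} [CommRing B] [IsLocalRing B]
    (f : A →+* B) (hf : Function.Surjective f) {x : A} {xs : List A}
    (hxs : Ideal.ofList (x :: xs) = maximalIdeal A) (hx : f x = 0) :
    Ideal.ofList (xs.map f) = maximalIdeal B := by
  rw [← map_maximalIdeal_of_surjective f hf, ← hxs, Ideal.map_ofList, List.map_cons,
    Ideal.ofList_cons, hx]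
  simp

/-- If the maximal ideal is generated by `x :: xs` and `N` has a weakly regular sequence
(in the maximal ideal) longer than `xs`, then `x` is `N`-regular. -/
theorem isSMulRegular_of_generator
    {N : Type v} [AddCommGroup N] [Module A N] [Module.Finite A N]
    {rs : List A} (hrs : IsWeaklyRegular N rs) (hmem : ∀ r ∈ rs, r ∈ maximalIdeal A)
    {x : A} {xs : List A} (hxs : Ideal.ofList (x :: xs) = maximalIdeal A)
    (hlen : xs.length < rs.length) : IsSMulRegular N x := by
  by_contra hx
  have hex : ∃ v : N, v ≠ 0 ∧ x • v = 0 := by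
    by_contra hcon
    push Not at hcon
    apply hx
    rw [isSMulRegular_iff_right_eq_zero_of_smul]
    intro v hv
    by_contra hv0
    exact hcon v hv0 hv
  obtain ⟨v, hv0, hxv⟩ := hex
  have hx' : x ∈ ⋃ p ∈ associatedPrimes A N, (p : Set A) := by
    rw [biUnion_associatedPrimes_eq_zero_divisors]
    exact ⟨v, hv0, hxv⟩
  obtain ⟨p, hp, hxp⟩ := Set.mem_iUnion₂.mp hx'
  have hpp : p.IsPrime := hp.isPrime
  have h1 := length_le_ringKrullDim_quotient_of_isAssociatedPrime hrs hmem hp
  have : IsLocalRing (A ⧸ p) :=
    IsLocalRing.of_surjective' (Ideal.Quotient.mk p) Ideal.Quotient.mk_surjective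
  have h2 := ringKrullDim_le_spanFinrank_maximalIdeal (A ⧸ p)
  have h3 : Ideal.ofList (xs.map (Ideal.Quotient.mk p)) = maximalIdeal (A ⧸ p) :=
    maximalIdeal_eq_ofList_map_of_surjective (Ideal.Quotient.mk p)
      Ideal.Quotient.mk_surjective hxs (Ideal.Quotient.eq_zero_iff_mem.mpr hxp)
  have h4 : (maximalIdeal (A ⧸ p)).spanFinrank ≤ xs.length := by
    rw [← h3]
    simpa using spanFinrank_ofList_le_length (xs.map (Ideal.Quotient.mk p))
  have h5 : (rs.length : WithBot ℕ∞) ≤ (xs.length : WithBot ℕ∞) := by
    refine h1.trans (h2.trans ?_)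
    exact_mod_cast h4
  have h6 : rs.length ≤ xs.length := by exact_mod_cast h5
  omega

end Generators

section Exchange

variable {A : Type u} [CommRing A] [IsLocalRing A] [IsNoetherianRing A]

theorem isWeaklyRegular_of_subsingleton {B : Type u} [CommRing B]
    (N : Type v) [AddCommGroup N] [Module B N] [Subsingleton N]
    (rs : List B) : IsWeaklyRegular N rs :=
  ⟨fun _ _ => Function.injective_of_subsingleton _⟩

/-- Exchange lemma: if `N` has a weakly regular sequence of length `n + 1` in the maximal ideal
and `x` in the maximal ideal is `N`-regular, then `N/xN` has a weakly regular sequence of length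
`n` in the maximal ideal. -/
theorem exists_isWeaklyRegular_quotSMulTop [Small.{v} A]
    {N : Type v} [AddCommGroup N] [Module A N] [Module.Finite A N]
    {rs : List A} (hrs : IsWeaklyRegular N rs) (hmem : ∀ r ∈ rs, r ∈ maximalIdeal A)
    {n : ℕ} (hlen : rs.length = n + 1)
    {x : A} (hx : IsSMulRegular N x) (hxm : x ∈ maximalIdeal A) :
    ∃ rs' : List A, rs'.length = n ∧ (∀ r ∈ rs', r ∈ maximalIdeal A) ∧
      IsWeaklyRegular (QuotSMulTop x N) rs' := by
  rcases subsingleton_or_nontrivial N with hN | hN
  · refine ⟨List.replicate n 0, by simp, ?_, isWeaklyRegular_of_subsingleton _ _⟩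
    intro r hr
    rw [List.eq_of_mem_replicate hr]
    exact zero_mem _
  · have hreg : IsRegular N rs := IsRegular.of_isWeaklyRegular_of_mem_maximalIdeal N hmem hrs
    have smul_lt : maximalIdeal A • (⊤ : Submodule A N) < ⊤ :=
      Ne.lt_top (Submodule.top_ne_ideal_smul_of_le_jacobson_annihilator
        (maximalIdeal_le_jacobson _)).symm
    have hN' : Nontrivial (QuotSMulTop x N) := nontrivial_quotSMulTop_of_mem_maximalIdeal N hxm
    have smul_lt' : maximalIdeal A • (⊤ : Submodule A (QuotSMulTop x N)) < ⊤ :=
      Ne.lt_top (Submodule.top_ne_ideal_smul_of_le_jacobson_annihilator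
        (maximalIdeal_le_jacobson _)).symm
    have h_ext : ∀ i < n + 1, Subsingleton
        (Ext (ModuleCat.of A (Shrink.{v} (A ⧸ maximalIdeal A))) (ModuleCat.of A N) i) := by
      have h31 := (ModuleCat.exists_isRegular_tfae (maximalIdeal A) (n + 1) (ModuleCat.of A N)
        smul_lt).out 3 1
      exact h31.mp ⟨rs, hlen, hmem, hreg⟩
    have h_ext' : ∀ i < n, Subsingleton
        (Ext (ModuleCat.of A (Shrink.{v} (A ⧸ maximalIdeal A)))
          (ModuleCat.of A (QuotSMulTop x N)) i) := by
      intro i hi
      have zero1 := AddCommGrpCat.isZero_of_iff_subsingleton.mpr (h_ext i (by omega))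
      have zero2 := AddCommGrpCat.isZero_of_iff_subsingleton.mpr (h_ext (i + 1) (by omega))
      have hx' : IsSMulRegular (ModuleCat.of A N) x := hx
      exact AddCommGrpCat.subsingleton_of_isZero <| ShortComplex.Exact.isZero_of_both_zeros
        ((Ext.covariant_sequence_exact₃' (ModuleCat.of A (Shrink.{v} (A ⧸ maximalIdeal A)))
          hx'.smulShortComplex_shortExact) i (i + 1) rfl)
        (zero1.eq_zero_of_src _) (zero2.eq_zero_of_tgt _)
    have h13 := (ModuleCat.exists_isRegular_tfae (maximalIdeal A) n
      (ModuleCat.of A (QuotSMulTop x N)) smul_lt').out 1 3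
    obtain ⟨rs', hlen', hmem', hreg'⟩ := h13.mp h_ext'
    exact ⟨rs', hlen', hmem', hreg'.toIsWeaklyRegular⟩

end Exchange


section Main

/-- Auxiliary form of `free_of_isWeaklyRegular` for induction on the number of generators of the
maximal ideal. -/
theorem free_of_isWeaklyRegular_aux : ∀ (n : ℕ) (A : Type u) [CommRing A] [IsLocalRing A]
    [IsNoetherianRing A] [Small.{v} A] (N : Type v) [AddCommGroup N] [Module A N]
    [Module.Finite A N] (xs rs : List A), xs.length = n → Ideal.ofList xs = maximalIdeal A →
    IsWeaklyRegular N rs → (∀ r ∈ rs, r ∈ maximalIdeal A) → xs.length ≤ rs.length →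
    Module.Free A N := by
  intro n
  induction n with
  | zero =>
    intro A _ _ _ _ N _ _ _ xs rs hn hxs _ _ _
    have hxs' : xs = [] := List.length_eq_zero_iff.mp hn
    subst hxs'
    rw [Ideal.ofList_nil] at hxs
    have hf : IsField A := isField_iff_maximalIdeal_eq.mpr hxs.symm
    let _ := hf.toField
    exact Module.Free.of_divisionRing A N
  | succ n ih =>
    intro A _ _ _ _ N _ _ _ xs rs hn hxs hrs hmem hlen
    match xs, hn, hxs, hlen with
    | [], hn, _, _ => simp at hn
    | x :: xs, hn, hxs, hlen =>
      have hn' : xs.length = n := by simpa using hn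
      have hxm : x ∈ maximalIdeal A := by
        rw [← hxs]
        exact Ideal.subset_span List.mem_cons_self
      obtain ⟨m, hm⟩ : ∃ m, rs.length = m + 1 :=
        ⟨rs.length - 1, by simp only [List.length_cons] at hlen; omega⟩
      have hx : IsSMulRegular N x := isSMulRegular_of_generator hrs hmem hxs
        (by simp only [List.length_cons] at hlen; omega)
      obtain ⟨rs', hlen', hmem', hrs'⟩ := exists_isWeaklyRegular_quotSMulTop hrs hmem hm hx hxm
      have hne : Ideal.span {x} ≠ (⊤ : Ideal A) := fun h =>
        (maximalIdeal.isMaximal A).ne_top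
          (top_le_iff.mp (h ▸ (Ideal.span_singleton_le_iff_mem _).mpr hxm))
      have : Nontrivial (A ⧸ Ideal.span {x}) := Ideal.Quotient.nontrivial_iff.mpr hne
      have : IsLocalRing (A ⧸ Ideal.span {x}) :=
        IsLocalRing.of_surjective' (Ideal.Quotient.mk _) Ideal.Quotient.mk_surjective
      have : Small.{v} (A ⧸ Ideal.span {x}) :=
        small_of_surjective (Ideal.Quotient.mk_surjective (I := Ideal.span {x}))
      have : Module.Finite (A ⧸ Ideal.span {x}) (QuotSMulTop x N) :=
        Module.Finite.of_restrictScalars_finite A (A ⧸ Ideal.span {x}) (QuotSMulTop x N)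
      have hfree : Module.Free (A ⧸ Ideal.span {x}) (QuotSMulTop x N) := by
        refine ih (A ⧸ Ideal.span {x}) (QuotSMulTop x N) (xs.map (Ideal.Quotient.mk _))
          (rs'.map (Ideal.Quotient.mk _)) (by simpa using hn') ?_ ?_ ?_ ?_
        · exact maximalIdeal_eq_ofList_map_of_surjective (Ideal.Quotient.mk _)
            Ideal.Quotient.mk_surjective hxs
            (Ideal.Quotient.eq_zero_iff_mem.mpr (Ideal.mem_span_singleton_self x))
        · exact (isWeaklyRegular_map_algebraMap_iff (A ⧸ Ideal.span {x})
            (QuotSMulTop x N) rs').mpr hrs'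
        · intro r hr
          obtain ⟨a, ha, rfl⟩ := List.mem_map.mp hr
          rw [← map_maximalIdeal_of_surjective (Ideal.Quotient.mk (Ideal.span {x}))
            Ideal.Quotient.mk_surjective]
          exact Ideal.mem_map_of_mem _ (hmem' a ha)
        · simp only [List.length_map, List.length_cons] at hlen ⊢
          omega
      have : Module.FinitePresentation A N := Module.finitePresentation_of_finite A N
      exact (Module.free_quotSMulTop_iff_free A N
        (maximalIdeal_le_jacobson _ hxm) hx).mp hfree

/-- **Maximal Cohen–Macaulay modules over a regular local ring are free** (elementary form):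
if the maximal ideal of a Noetherian local ring `A` is generated by a list `xs`, and a finite
`A`-module `N` admits a weakly regular sequence `rs` in the maximal ideal with
`xs.length ≤ rs.length`, then `N` is free. -/
theorem free_of_isWeaklyRegular {A : Type u} [CommRing A] [IsLocalRing A]
    [IsNoetherianRing A] [Small.{v} A] {N : Type v} [AddCommGroup N] [Module A N]
    [Module.Finite A N] {xs rs : List A} (hxs : Ideal.ofList xs = maximalIdeal A)
    (hrs : IsWeaklyRegular N rs) (hmem : ∀ r ∈ rs, r ∈ maximalIdeal A)
    (hlen : xs.length ≤ rs.length) : Module.Free A N :=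
  free_of_isWeaklyRegular_aux xs.length A N xs rs rfl hxs hrs hmem hlen

end Main

end Fermat.Agent.S57
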